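import Mathlib
import Fermat.Agent.MUL.Orig.S17.Interfaces
import Fermat.Agent.MUL.Lib.FF.GeomBases

set_option autoImplicit false

/-!
# S17, package H (heights): basic definitions

* `AbsSys`  : a system of absolute values on `ℚ̄` (one for each place of `ℚ`) with the product
              formula and the Northcott property on `ℚ`.  Existence = package ABS
              (`Fermat.Agent.S17.nonempty_absSys`).
* `MConst`  : "`M`-constants" `γ = (γ_v)_v`, `γ_v ≥ 0`, `γ_v = 0` for almost all `v`.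
* `vnorm`   : the sup-norm `‖x‖_v = max_i |x_i|_v` of a vector.

Every local statement of package H has the form `|λ_v(y) - λ'_v(y)| ≤ γ v` for one `γ : MConst 𝔸`
(all `v`, all `y`); global statements are obtained by summing over `v`.
-/

noncomputable section

namespace Fermat.Agent.S17

/-- notation-free name for the field of algebraic numbers -/
abbrev Qbar : Type := AlgebraicClosure ℚ

/-- A system of absolute values on `ℚ̄`: one absolute value for each place of `ℚ`. -/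
structure AbsSys where
  /-- the places of `ℚ` -/
  ι : Type
  /-- the chosen extension to `ℚ̄` of the absolute value of the place `v` -/
  abv : ι → AbsoluteValue Qbar ℝ
  /-- the archimedean places -/
  arch : Finset ι
  /-- all other places are ultrametric -/
  nonarch : ∀ v, v ∉ arch → IsNonarchimedean (abv v)
  /-- a nonzero algebraic number is a unit at almost all places -/
  finite_ne_one : ∀ a : Qbar, a ≠ 0 → {v | abv v a ≠ 1}.Finite
  /-- product formula on `ℚ` -/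
  product_formula : ∀ a : ℚ, a ≠ 0 → ∑ᶠ v, Real.log (abv v (algebraMap ℚ Qbar a)) = 0
  /-- Northcott on `ℚ` -/
  northcott : ∀ B : ℝ,
    {a : ℚ | ∑ᶠ v, Real.log (max 1 (abv v (algebraMap ℚ Qbar a))) ≤ B}.Finite

/-- `M`-constants: nonnegative, zero at almost all places. -/
structure MConst (𝔸 : AbsSys) where
  /-- the constant at the place `v` -/
  c : 𝔸.ι → ℝ
  nonneg : ∀ v, 0 ≤ c v
  finite : {v | c v ≠ 0}.Finite

namespace MConst

variable {𝔸 : AbsSys}

instance : CoeFun (MConst 𝔸) (fun _ => 𝔸.ι → ℝ) := ⟨MConst.c⟩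

/-- the zero constant -/
instance : Zero (MConst 𝔸) := ⟨⟨fun _ => 0, fun _ => le_rfl, by simp⟩⟩

/-- sum of two `M`-constants -/
instance : Add (MConst 𝔸) :=
  ⟨fun γ γ' => ⟨fun v => γ.c v + γ'.c v, fun v => add_nonneg (γ.nonneg v) (γ'.nonneg v),
    (γ.finite.union γ'.finite).subset (by
      intro v hv
      simp only [Set.mem_ofPred_eq, ne_eq] at hv
      by_contra h
      simp only [Set.mem_union, Set.mem_ofPred_eq, ne_eq, not_or, not_not] at h
      exact hv (by rw [h.1, h.2, add_zero]))⟩⟩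

/-- multiple of an `M`-constant -/
def nsmul' (n : ℕ) (γ : MConst 𝔸) : MConst 𝔸 :=
  ⟨fun v => n * γ.c v, fun v => mul_nonneg (Nat.cast_nonneg n) (γ.nonneg v),
    γ.finite.subset (by
      intro v hv
      simp only [Set.mem_ofPred_eq, ne_eq] at hv ⊢
      intro h
      exact hv (by rw [h, mul_zero]))⟩

@[simp] theorem add_apply (γ γ' : MConst 𝔸) (v : 𝔸.ι) : (γ + γ') v = γ v + γ' v := rfl
@[simp] theorem zero_apply (v : 𝔸.ι) : (0 : MConst 𝔸) v = 0 := rfl
@[simp] theorem nsmul'_apply (n : ℕ) (γ : MConst 𝔸) (v : 𝔸.ι) : (nsmul' n γ) v = n * γ v := rfl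

/-- the total `Σ_v γ_v` -/
def total (γ : MConst 𝔸) : ℝ := ∑ᶠ v, γ v

theorem total_nonneg (γ : MConst 𝔸) : 0 ≤ γ.total := finsum_nonneg γ.nonneg

end MConst

/-- the sup-norm of a vector at the place `v` -/
def vnorm (𝔸 : AbsSys) (v : 𝔸.ι) {n : ℕ} (x : Fin (n + 1) → Qbar) : ℝ :=
  Finset.univ.sup' Finset.univ_nonempty fun i => 𝔸.abv v (x i)

theorem vnorm_nonneg (𝔸 : AbsSys) (v : 𝔸.ι) {n : ℕ} (x : Fin (n + 1) → Qbar) : 0 ≤ vnorm 𝔸 v x :=
  le_trans ((𝔸.abv v).nonneg (x 0)) (Finset.le_sup' (fun i => 𝔸.abv v (x i)) (Finset.mem_univ 0))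

theorem abv_le_vnorm (𝔸 : AbsSys) (v : 𝔸.ι) {n : ℕ} (x : Fin (n + 1) → Qbar) (i : Fin (n + 1)) :
    𝔸.abv v (x i) ≤ vnorm 𝔸 v x :=
  Finset.le_sup' (fun i => 𝔸.abv v (x i)) (Finset.mem_univ i)

theorem exists_abv_eq_vnorm (𝔸 : AbsSys) (v : 𝔸.ι) {n : ℕ} (x : Fin (n + 1) → Qbar) :
    ∃ i, 𝔸.abv v (x i) = vnorm 𝔸 v x := by
  obtain ⟨i, -, hi⟩ := Finset.exists_mem_eq_sup' Finset.univ_nonempty fun i => 𝔸.abv v (x i)
  exact ⟨i, hi.symm⟩

theorem vnorm_pos (𝔸 : AbsSys) (v : 𝔸.ι) {n : ℕ} {x : Fin (n + 1) → Qbar} (hx : x ≠ 0) :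
    0 < vnorm 𝔸 v x := by
  obtain ⟨i, hi⟩ := Function.ne_iff.mp hx
  exact lt_of_lt_of_le ((𝔸.abv v).pos hi) (abv_le_vnorm 𝔸 v x i)

end Fermat.Agent.S17
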